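import Fermat.Agent.S55.E1.SpecLim
import Fermat.Agent.S55.E1.H957.Lim3Sys
import Fermat.Agent.S55.Bridge.Archimedean

/-!
# S55 engine E1, block LIM, leaf LIM4 (helper655)

`lim4 : LIM4Spec`: for a finite-dimensional `𝔽_p`-representation `N` trivialised by a level `L₀`
(`p` odd), `sha₁ S N` is finite and `|Ш¹_F(N)| = |sha₁ S N|` for all sufficiently large levels `F`.

Glue of
* helper603 `H603.exists_level_forall_card_sha1Fin_eq` (LIM4 over `𝔽_p`),
* helper957 `H957.card_shaFin_eq` (coefficients `ℤ` versus `𝔽_p`),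
* `Bridge.mem_sha₁_iff` (`sha₁ ⊆ continuousH1S`) and the hypothesis `H1FiniteSpec` (GD10).
-/

set_option autoImplicit false

namespace Fermat.Agent.S55.E1.H655

open ExtCitation groupCohomology Fermat.Agent.S55.Tow Fermat.Agent.S55.E1
open Fermat.Agent.S55.E1.Lim

/-- `sha₁ S N` is finite as soon as `continuousH1S S N` is a finite `𝔽_p`-module (`p` odd). -/
theorem finite_sha₁_of_finite_continuousH1S {p : ℕ} [Fact p.Prime] (hp2 : p ≠ 2)
    (S : Finset Nat.Primes) (N : Rep.{0, 0, 0} (ZMod p) Tow.GQ)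
    (h : Module.Finite (ZMod p) (continuousH1S S N)) : Finite (sha₁ S N) := by
  have h2 : (2 : ZMod p) ≠ 0 := by
    intro h0
    have h1 : ((2 : ℕ) : ZMod p) = 0 := by exact_mod_cast h0
    rw [ZMod.natCast_eq_zero_iff] at h1
    have hp : p.Prime := Fact.out
    exact hp2 ((Nat.prime_dvd_prime_iff_eq hp Nat.prime_two).1 h1)
  haveI : Finite (continuousH1S S N) := Module.finite_of_finite (ZMod p)
  have hle : sha₁ S N ≤ continuousH1S S N := fun x hx =>
    ((Fermat.Agent.S55.Bridge.mem_sha₁_iff S h2 N x).1 hx).1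
  exact Finite.of_injective (Submodule.inclusion hle) (Submodule.inclusion_injective hle)

/-- **LIM4** (`E1/SpecLim.lean`): exact shape of `LIM4Spec`. -/
theorem lim4 : LIM4Spec := by
  intro p _ hp2 S _ hF N _ L₀ hN
  have h2 : (2 : ZMod p) ≠ 0 := by
    intro h0
    have h1 : ((2 : ℕ) : ZMod p) = 0 := by exact_mod_cast h0
    rw [ZMod.natCast_eq_zero_iff] at h1
    have hp : p.Prime := Fact.out
    exact hp2 ((Nat.prime_dvd_prime_iff_eq hp Nat.prime_two).1 h1)
  have hfin : Finite (sha₁ S N) :=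
    finite_sha₁_of_finite_continuousH1S hp2 S N
      (hF N ⟨L₀, fun s hs => LinearMap.ext fun n => hN s hs n⟩)
  haveI := hfin
  obtain ⟨L₁, h01, hcard⟩ := H603.exists_level_forall_card_sha1Fin_eq N h2 L₀ hN
  exact ⟨hfin, L₁, h01, fun L hL => (H957.card_shaFin_eq N L).trans (hcard L hL)⟩

end Fermat.Agent.S55.E1.H655
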