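import Fermat.Agent.S55.E1.SpecLim
import Fermat.Agent.S55.Bridge.DualTwist

/-!
# S55 engine E1, block LIM, leaf LIM-BASE (helper655)

`limBase : LIMBaseSpec`: under the hypotheses of S55 (`p` odd is not even needed, `p ∈ S`) there is
a tower level `L₀` (finite Galois over `ℚ`, unramified outside `S`) which contains `μ_p` and whose
group `U = Gal(ℚ̄/L₀)` acts trivially on `M` and on `N = M.dualTwist (cycloChar p)`.

Proof: `L₀` is the fixed field of `ker ρ_M ∩ ker χ_p` (part B2 of the bridge,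
`Bridge/Level.lean`, `Bridge/DualTwist.lean`, `Bridge/Cyclo.lean`).
-/

set_option autoImplicit false

namespace Fermat.Agent.S55.E1.H655

open ExtCitation IntermediateField Fermat.Agent.S55.Tow Fermat.Agent.S55.Bridge
open Fermat.Agent.S55.E1 Fermat.Agent.S55.E1.Lim

attribute [local instance] isAlgebraic_Qbar isGalois_Qbar

/-- **LIM-BASE**, explicit form: the level can be taken with `U = ker ρ_M ∩ ker χ_p`. -/
theorem exists_base_level {p : ℕ} [Fact p.Prime] (S : Finset Nat.Primes) (hpS : pPrime p ∈ S)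
    (M : Rep.{0, 0, 0} (ZMod p) Tow.GQ) [FiniteDimensional (ZMod p) M] (hM : IsAdmissible S M) :
    ∃ L₀ : Level S, L₀.HasMu p ∧ L₀.U = MonoidHom.ker M.ρ ⊓ MonoidHom.ker (cycloChar p) := by
  obtain ⟨hsm, hMur⟩ := hM
  obtain ⟨F, hFfin, hF⟩ := exists_finite_level_of_smooth M hsm
  haveI := hFfin
  haveI := cycloLevel_finiteDimensional p
  have hsupfin : FiniteDimensional ℚ ↥(F ⊔ cycloLevel p) :=
    IntermediateField.finiteDimensional_sup F (cycloLevel p)
  obtain ⟨L, hL, -, hfix, -⟩ := exists_galois_level_of_subgroup S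
    (MonoidHom.ker M.ρ ⊓ MonoidHom.ker (cycloChar p)) (F ⊔ cycloLevel p) hsupfin
    (fun s hs => by
      rw [IntermediateField.fixingSubgroup_sup] at hs
      exact ⟨MonoidHom.mem_ker.2 (hF s hs.1),
        MonoidHom.mem_ker.2 (cycloChar_eq_one_of_mem_fixingSubgroup p s hs.2)⟩)
    (fun q hq A hA g hg => by
      have hqp : (q : ℕ) ≠ p := by
        intro h
        apply hq
        have : q = pPrime p := Subtype.ext h
        rw [this]
        exact hpS
      exact ⟨MonoidHom.mem_ker.2 (hMur q hq A hA g hg),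
        MonoidHom.mem_ker.2 (cycloChar_eq_one_of_mem_inertia p q.2 hqp A hA g hg)⟩)
  have hnormal : (L.fixingSubgroup).Normal := by
    rw [hfix]
    infer_instance
  refine ⟨⟨L, hL, hnormal⟩, ?_, hfix⟩
  -- `μ_p ⊂ L`
  haveI : NeZero p := ⟨(Fact.out : p.Prime).ne_zero⟩
  obtain ⟨ζ, hζ⟩ := HasEnoughRootsOfUnity.exists_primitiveRoot (AlgebraicClosure ℚ) p
  refine ⟨ζ, ?_, hζ⟩
  have hmem : ζ ∈ IntermediateField.fixedField L.fixingSubgroup := by
    rw [IntermediateField.mem_fixedField_iff]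
    intro σ hσ
    rw [hfix] at hσ
    have hχ : cycloChar p σ = 1 := MonoidHom.mem_ker.1 hσ.2
    have hunit : IsUnit ζ := hζ.isUnit (Fact.out : p.Prime).ne_zero
    obtain ⟨t, ht⟩ := hunit
    have htmem : t ∈ rootsOfUnity p (AlgebraicClosure ℚ) := by
      rw [mem_rootsOfUnity]
      apply Units.ext
      rw [Units.val_pow_eq_pow_val, ht, hζ.pow_eq_one, Units.val_one]
    have := (cycloChar_eq_one_iff p σ).1 hχ t htmem
    rwa [ht] at this
  rwa [InfiniteGalois.fixedField_fixingSubgroup L] at hmem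

/-- **LIM-BASE** (`E1/SpecLim.lean`): exact shape of `LIMBaseSpec`. -/
theorem limBase : LIMBaseSpec := by
  intro p _ _ S hpS M _ hM
  obtain ⟨L₀, hμ, hU⟩ := exists_base_level S hpS M hM
  refine ⟨L₀, hμ, fun s hs m => ?_, fun s hs n => ?_⟩
  · rw [hU] at hs
    have h1 : M.ρ s = 1 := MonoidHom.mem_ker.1 hs.1
    rw [h1]
    rfl
  · rw [hU] at hs
    have h1 : M.ρ s = 1 := MonoidHom.mem_ker.1 hs.1
    have h2 : cycloChar p s = 1 := MonoidHom.mem_ker.1 hs.2
    rw [dualTwist_ρ_eq_one M (cycloChar p) s h1 h2]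
    rfl

end Fermat.Agent.S55.E1.H655
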